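/-
Program J / J7 (R3*): complete discrete valuation rings from number fields.

Part A (generic, Mathlib only): for a Dedekind domain `R` with fraction field `K` and a height-one
prime `v`, the ring `v.adicCompletionIntegers K` is `𝔪`-adically complete (`isAdicComplete`), its
residue field is `R ⧸ v` (`residueEquiv`), it has characteristic zero if `K` does.

Part B: for a commutative ring `T` which is a finitely generated `ℤ`-module, a ring hom
`χ : T →+* integralClosure ℤ ℂ` and a prime `𝔐 ∋ p` of `integralClosure ℤ ℂ`, there is a complete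
DVR `𝒪'` (char. 0, finite residue field, `p ∈ 𝔪`) with `ι : T →+* 𝒪'` and
`ψ : ResidueField 𝒪' →+* integralClosure ℤ ℂ ⧸ 𝔐` such that `ψ (residue (ι t)) = mk (χ t)`
(`exists_completeDVR`).
-/
import Mathlib

set_option autoImplicit false

open IsDedekindDomain HeightOneSpectrum IsLocalRing WithZero Filter Topology NumberField

namespace Fermat.Agent.ES.J7.CompleteDVR1

section PartA


variable {R : Type*} [CommRing R] [IsDedekindDomain R] (K : Type*) [Field K] [Algebra R K]
  [IsFractionRing R K] (v : HeightOneSpectrum R)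

/-- a uniformiser of the completed integers -/
theorem exists_uniformizer :
    ∃ ϖ : v.adicCompletionIntegers K, Valued.v (ϖ : v.adicCompletion K) = exp (-1 : ℤ) := by
  obtain ⟨π, hπ⟩ := v.valuation_exists_uniformizer K
  refine ⟨⟨(π : v.adicCompletion K), ?_⟩, ?_⟩
  · rw [mem_adicCompletionIntegers, valuedAdicCompletion_eq_valuation', hπ]
    exact (exp_le_exp.mpr (by norm_num : (-1 : ℤ) ≤ 0)).trans_eq exp_zero
  · exact (valuedAdicCompletion_eq_valuation' v π).trans hπ

theorem mem_maximalIdeal_iff {x : v.adicCompletionIntegers K} :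
    x ∈ maximalIdeal (v.adicCompletionIntegers K) ↔ Valued.v (x : v.adicCompletion K) < 1 :=
  Valuation.mem_maximalIdeal_iff _ _

theorem maximalIdeal_eq_span {ϖ : v.adicCompletionIntegers K}
    (hϖ : Valued.v (ϖ : v.adicCompletion K) = exp (-1 : ℤ)) :
    maximalIdeal (v.adicCompletionIntegers K) = Ideal.span {ϖ} := by
  ext x
  rw [mem_maximalIdeal_iff, Ideal.mem_span_singleton,
    (adicCompletionIntegers.integers K v).dvd_iff_le]
  show _ ↔ Valued.v (x : v.adicCompletion K) ≤ Valued.v (ϖ : v.adicCompletion K)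
  rw [hϖ, ← lt_mul_exp_iff_le (by simp), ← exp_add]
  simp

theorem mem_maximalIdeal_pow_iff {ϖ : v.adicCompletionIntegers K}
    (hϖ : Valued.v (ϖ : v.adicCompletion K) = exp (-1 : ℤ)) (n : ℕ)
    {x : v.adicCompletionIntegers K} :
    x ∈ maximalIdeal (v.adicCompletionIntegers K) ^ n ↔
      Valued.v (x : v.adicCompletion K) ≤ Valued.v ((ϖ : v.adicCompletion K) ^ n) := by
  rw [maximalIdeal_eq_span K v hϖ, Ideal.span_singleton_pow, Ideal.mem_span_singleton,
    (adicCompletionIntegers.integers K v).dvd_iff_le]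
  rfl

theorem valued_pow_uniformizer {ϖ : v.adicCompletionIntegers K}
    (hϖ : Valued.v (ϖ : v.adicCompletion K) = exp (-1 : ℤ)) (n : ℕ) :
    Valued.v ((ϖ : v.adicCompletion K) ^ n) = exp (-(n : ℤ)) := by
  rw [map_pow, hϖ, ← exp_nsmul]
  simp

theorem isClosed_ball_sub (a b : v.adicCompletion K) :
    IsClosed {x : v.adicCompletion K | Valued.v (x - a) ≤ Valued.v b} := by
  have h := (Valued.isClosed_closedBall (v.adicCompletion K)
    ((Valued.v : Valuation (v.adicCompletion K) ℤᵐ⁰).restrict b)).preimage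
    (continuous_id.sub (continuous_const (y := a)))
  convert h using 1
  ext x
  simp [Valuation.restrict_le_iff]

theorem isPrecomplete :
    IsPrecomplete (maximalIdeal (v.adicCompletionIntegers K)) (v.adicCompletionIntegers K) := by
  obtain ⟨ϖ, hϖ⟩ := exists_uniformizer K v
  refine ⟨fun f hf => ?_⟩
  have key : ∀ m n, m ≤ n → Valued.v ((f n : v.adicCompletion K) - f m)
      ≤ Valued.v ((ϖ : v.adicCompletion K) ^ m) := by
    intro m n hmn
    have h := (hf hmn).symm
    rw [SModEq.sub_mem, smul_eq_mul, Ideal.mul_top, mem_maximalIdeal_pow_iff K v hϖ] at h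
    exact h
  have hc : CauchySeq (fun n => (f n : v.adicCompletion K)) := by
    rw [(Valued.hasBasis_uniformity (v.adicCompletion K) ℤᵐ⁰).cauchySeq_iff]
    intro γ _
    set g : ℤᵐ⁰ := MonoidWithZeroHom.ValueGroup₀.embedding γ.1 with hg
    have hg0 : g ≠ 0 := by
      rw [hg]
      simp
    refine ⟨(1 - log g).toNat, fun m hm n hn => ?_⟩
    simp only [Set.mem_ofPred_eq, Valuation.restrict_lt_iff_lt_embedding]
    have hN : exp (-(((1 - log g).toNat : ℕ) : ℤ)) < g := by
      have h3 : -(((1 - log g).toNat : ℕ) : ℤ) < log g := by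
        have := Int.self_le_toNat (1 - log g)
        omega
      exact (exp_lt_exp.mpr h3).trans_eq (exp_log hg0)
    have h1 : ∀ m, (1 - log g).toNat ≤ m →
        Valued.v ((f m : v.adicCompletion K) - f (1 - log g).toNat) < g := fun m hm =>
      ((key _ m hm).trans_eq (valued_pow_uniformizer K v hϖ _)).trans_lt hN
    have h2 : (f n : v.adicCompletion K) - f m
        = (f n - f (1 - log g).toNat) - (f m - f (1 - log g).toNat) := by ring
    rw [← hg, h2]
    exact (Valuation.map_sub _ _ _).trans_lt (max_lt (h1 n hn) (h1 m hm))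
  obtain ⟨L, hL⟩ := cauchySeq_tendsto_of_complete hc
  have hLn : ∀ n, Valued.v (L - f n) ≤ Valued.v ((ϖ : v.adicCompletion K) ^ n) := by
    intro n
    refine (isClosed_ball_sub K v (f n : v.adicCompletion K) _).mem_of_tendsto hL ?_
    filter_upwards [eventually_ge_atTop n] with m hm
    exact key n m hm
  have hLmem : L ∈ v.adicCompletionIntegers K := by
    rw [mem_adicCompletionIntegers]
    have h0 := hLn 0
    rw [pow_zero, map_one] at h0
    have : L = (L - f 0) + f 0 := by ring
    rw [this]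
    exact (Valuation.map_add _ _ _).trans (max_le h0 ((mem_adicCompletionIntegers R K v).mp (f 0).2))
  refine ⟨⟨L, hLmem⟩, fun n => ?_⟩
  rw [SModEq.sub_mem, smul_eq_mul, Ideal.mul_top, mem_maximalIdeal_pow_iff K v hϖ]
  have := hLn n
  rw [Valuation.map_sub_swap] at this
  exact this

theorem isAdicComplete :
    IsAdicComplete (maximalIdeal (v.adicCompletionIntegers K)) (v.adicCompletionIntegers K) :=
  { isPrecomplete K v with }





theorem coe_eq_algebraMap (k : K) :
    (k : v.adicCompletion K) = algebraMap K (v.adicCompletion K) k := by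
  rw [algebraMap_adicCompletion]
  rfl

theorem valued_algebraMap (k : K) :
    Valued.v (algebraMap K (v.adicCompletion K) k) = v.valuation K k := by
  rw [← coe_eq_algebraMap]
  exact valuedAdicCompletion_eq_valuation' v k

theorem isOpen_ball_sub (a : v.adicCompletion K) :
    IsOpen {x : v.adicCompletion K | Valued.v (x - a) < 1} := by
  have h := (Valued.isOpen_ball (v.adicCompletion K) 1).preimage
    (continuous_id.sub (continuous_const (y := a)))
  convert h using 1
  ext x
  simp [Valuation.restrict_lt_one_iff]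

/-- The residue map restricted to `R`. -/
noncomputable def resMap : R →+* ResidueField (v.adicCompletionIntegers K) :=
  (residue (v.adicCompletionIntegers K)).comp (algebraMap R (v.adicCompletionIntegers K))

theorem algebraMap_mem_maximalIdeal_iff (r : R) :
    algebraMap R (v.adicCompletionIntegers K) r ∈ maximalIdeal (v.adicCompletionIntegers K)
      ↔ r ∈ v.asIdeal := by
  rw [mem_maximalIdeal_iff, algebraMap_adicCompletionIntegers_apply, coe_eq_algebraMap,
    valued_algebraMap, valuation_lt_one_iff_mem]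

theorem resMap_eq_zero_iff (r : R) : resMap K v r = 0 ↔ r ∈ v.asIdeal := by
  rw [resMap, RingHom.comp_apply, residue_eq_zero_iff, algebraMap_mem_maximalIdeal_iff]

theorem ker_resMap : RingHom.ker (resMap K v) = v.asIdeal := by
  ext r
  rw [RingHom.mem_ker, resMap_eq_zero_iff]

theorem exists_sub_mem_maximalIdeal (x : v.adicCompletionIntegers K) :
    ∃ r : R, x - algebraMap R (v.adicCompletionIntegers K) r
      ∈ maximalIdeal (v.adicCompletionIntegers K) := by
  obtain ⟨y, hy⟩ := (denseRange_algebraMap K v).exists_mem_open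
    (isOpen_ball_sub K v (x : v.adicCompletion K)) ⟨x, by simp⟩
  have hy' : Valued.v (algebraMap K (v.adicCompletion K) y - x) < 1 := hy
  have hy1 : v.valuation K y ≤ 1 := by
    rw [← valued_algebraMap]
    have : algebraMap K (v.adicCompletion K) y = (algebraMap K (v.adicCompletion K) y - x) + x := by
      ring
    rw [this]
    exact (Valuation.map_add _ _ _).trans
      (max_le hy'.le ((mem_adicCompletionIntegers R K v).mp x.2))
  obtain ⟨a, ha⟩ := exists_valuation_sub_lt_of_integer v hy1 1
  refine ⟨a, ?_⟩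
  rw [mem_maximalIdeal_iff]
  have h1 : Valued.v (algebraMap K (v.adicCompletion K) (algebraMap R K a)
      - algebraMap K (v.adicCompletion K) y) < 1 := by
    rw [← map_sub, valued_algebraMap]
    simpa using ha
  have h2 : ((x - algebraMap R (v.adicCompletionIntegers K) a : v.adicCompletionIntegers K) :
      v.adicCompletion K) = - ((algebraMap K (v.adicCompletion K) (algebraMap R K a)
        - algebraMap K (v.adicCompletion K) y) + (algebraMap K (v.adicCompletion K) y - x)) := by
    rw [AddSubgroupClass.coe_sub, algebraMap_adicCompletionIntegers_apply, coe_eq_algebraMap]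
    ring
  rw [h2, Valuation.map_neg]
  exact (Valuation.map_add _ _ _).trans_lt (max_lt h1 hy')

theorem resMap_surjective : Function.Surjective (resMap K v) := by
  intro z
  obtain ⟨x, rfl⟩ := residue_surjective z
  obtain ⟨r, hr⟩ := exists_sub_mem_maximalIdeal K v x
  refine ⟨r, ?_⟩
  rw [resMap, RingHom.comp_apply]
  rw [← residue_eq_zero_iff, map_sub, sub_eq_zero] at hr
  exact hr.symm

/-- `R ⧸ v ≃ ResidueField 𝒪_v`. -/
noncomputable def residueEquiv :
    (R ⧸ v.asIdeal) ≃+* ResidueField (v.adicCompletionIntegers K) :=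
  (Ideal.quotEquivOfEq (ker_resMap K v).symm).trans
    (RingHom.quotientKerEquivOfSurjective (resMap_surjective K v))

theorem residueEquiv_mk (r : R) :
    residueEquiv K v (Ideal.Quotient.mk v.asIdeal r)
      = residue (v.adicCompletionIntegers K) (algebraMap R (v.adicCompletionIntegers K) r) := by
  rfl

theorem finite_residueField [Finite (R ⧸ v.asIdeal)] :
    Finite (ResidueField (v.adicCompletionIntegers K)) :=
  Finite.of_equiv _ (residueEquiv K v).toEquiv

theorem charZero [CharZero K] : CharZero (v.adicCompletionIntegers K) := by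
  refine ⟨fun a b h => ?_⟩
  have h' : ((a : v.adicCompletionIntegers K) : v.adicCompletion K)
      = (b : v.adicCompletionIntegers K) := by
    rw [h]
  have : (algebraMap K (v.adicCompletion K)) (a : K) = algebraMap K (v.adicCompletion K) (b : K) := by
    simpa using h'
  exact Nat.cast_injective ((algebraMap K (v.adicCompletion K)).injective this)


end PartA

section PartB


/-- ring hom into the ring of integers from an integral-valued ring hom. -/
def restrictRingHom {T K : Type*} [CommRing T] [Field K] (f : T →+* K)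
    (h : ∀ x, IsIntegral ℤ (f x)) : T →+* 𝓞 K where
  toFun x := ⟨f x, h x⟩
  map_zero' := by ext; simp only [RingOfIntegers.map_mk, map_zero]
  map_one' := by ext; simp only [RingOfIntegers.map_mk, map_one]
  map_add' x y := by ext; simp only [RingOfIntegers.map_mk, map_add]
  map_mul' x y := by ext; simp only [RingOfIntegers.map_mk, map_mul]

@[simp] theorem coe_restrictRingHom {T K : Type*} [CommRing T] [Field K] (f : T →+* K)
    (h : ∀ x, IsIntegral ℤ (f x)) (x : T) : (restrictRingHom f h x : K) = f x := rfl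

variable {T : Type*} [CommRing T] (χ : T →+* integralClosure ℤ ℂ)

/-- the field generated by the values of `χ` -/
noncomputable def fieldE : IntermediateField ℚ ℂ :=
  IntermediateField.adjoin ℚ (Set.range fun t : T => ((χ t : integralClosure ℤ ℂ) : ℂ))

theorem coe_mem_fieldE (t : T) : ((χ t : integralClosure ℤ ℂ) : ℂ) ∈ fieldE χ :=
  IntermediateField.subset_adjoin _ _ ⟨t, rfl⟩

theorem finiteDimensional_fieldE [Module.Finite ℤ T] : FiniteDimensional ℚ (fieldE χ) := by
  obtain ⟨s, hs⟩ := (Module.Finite.fg_top : (⊤ : Submodule ℤ T).FG)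
  set S : Set ℂ := (fun t : T => ((χ t : integralClosure ℤ ℂ) : ℂ)) '' (s : Set T) with hS
  have hfin : Finite S := (s.finite_toSet.image _).to_subtype
  have hint : ∀ x ∈ S, IsIntegral ℚ x := by
    rintro _ ⟨t, -, rfl⟩
    exact (χ t).2.tower_top
  have := IntermediateField.finiteDimensional_adjoin (K := ℚ) hint
  have hle : fieldE χ ≤ IntermediateField.adjoin ℚ S := by
    refine IntermediateField.adjoin_le_iff.mpr ?_
    rintro _ ⟨t, rfl⟩
    have ht : t ∈ Submodule.span ℤ (s : Set T) := by rw [hs]; trivial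
    induction ht using Submodule.span_induction with
    | mem x hx => exact IntermediateField.subset_adjoin _ _ ⟨x, hx, rfl⟩
    | zero => simp
    | add x y _ _ hx hy =>
      simp only [map_add, Subalgebra.coe_add]
      exact add_mem hx hy
    | smul a x _ hx =>
      simp only [zsmul_eq_mul, map_mul, map_intCast, Subalgebra.coe_mul]
      exact mul_mem (by simp) hx
  have h2 : FiniteDimensional ℚ (IntermediateField.adjoin ℚ S).toSubalgebra.toSubmodule := this
  exact Submodule.finiteDimensional_of_le (S₁ := (fieldE χ).toSubalgebra.toSubmodule)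
    (S₂ := (IntermediateField.adjoin ℚ S).toSubalgebra.toSubmodule) hle


noncomputable instance numberField_fieldE [Module.Finite ℤ T] : NumberField (fieldE χ) :=
  { to_charZero := inferInstance
    to_finiteDimensional := finiteDimensional_fieldE χ }

/-- `χ` with values in `fieldE χ`. -/
noncomputable def chiE : T →+* fieldE χ where
  toFun t := ⟨((χ t : integralClosure ℤ ℂ) : ℂ), coe_mem_fieldE χ t⟩
  map_zero' := by ext; simp
  map_one' := by ext; simp
  map_add' x y := by ext; simp
  map_mul' x y := by ext; simp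

@[simp] theorem coe_chiE (t : T) : ((chiE χ t : fieldE χ) : ℂ) = ((χ t : integralClosure ℤ ℂ) : ℂ) :=
  rfl

theorem isIntegral_chiE (t : T) : IsIntegral ℤ (chiE χ t) := by
  have h : IsIntegral ℤ ((chiE χ t : fieldE χ) : ℂ) := (χ t).2
  exact (isIntegral_algHom_iff ((fieldE χ).val.restrictScalars ℤ) Subtype.val_injective).mp h

/-- `χ` with values in the ring of integers of `fieldE χ`. -/
noncomputable def chiO : T →+* 𝓞 (fieldE χ) := restrictRingHom (chiE χ) (isIntegral_chiE χ)

/-- The inclusion of the ring of integers of a subfield of `ℂ` into the algebraic integers. -/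
noncomputable def toZbar (E : IntermediateField ℚ ℂ) : 𝓞 E →+* integralClosure ℤ ℂ where
  toFun x := ⟨((x : E) : ℂ), map_isIntegral_int (algebraMap E ℂ) (RingOfIntegers.isIntegral_coe x)⟩
  map_zero' := by ext; simp
  map_one' := by ext; simp
  map_add' x y := by ext; simp
  map_mul' x y := by ext; simp

@[simp] theorem coe_toZbar (E : IntermediateField ℚ ℂ) (x : 𝓞 E) :
    ((toZbar E x : integralClosure ℤ ℂ) : ℂ) = ((x : E) : ℂ) := rfl

theorem toZbar_chiO (t : T) : toZbar (fieldE χ) (chiO χ t) = χ t := by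
  ext
  rfl

variable [Module.Finite ℤ T] (p : ℕ) [hp : Fact p.Prime] (𝔐 : Ideal (integralClosure ℤ ℂ))
  [h𝔐 : 𝔐.IsPrime] (hp𝔐 : (p : integralClosure ℤ ℂ) ∈ 𝔐)

/-- The height-one prime of `𝓞 (fieldE χ)` below `𝔐`. -/
noncomputable def primeV : HeightOneSpectrum (𝓞 (fieldE χ)) where
  asIdeal := 𝔐.comap (toZbar (fieldE χ))
  isPrime := inferInstance
  ne_bot := by
    intro h
    have h1 : (p : 𝓞 (fieldE χ)) ∈ 𝔐.comap (toZbar (fieldE χ)) := by
      rw [Ideal.mem_comap, map_natCast]
      exact hp𝔐
    rw [h, Ideal.mem_bot] at h1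
    exact (Nat.cast_ne_zero.mpr hp.out.ne_zero) h1

omit [Module.Finite ℤ T] in
include hp𝔐 in
theorem natCast_mem_primeV : (p : 𝓞 (fieldE χ)) ∈ (primeV χ p 𝔐 hp𝔐).asIdeal := by
  show (p : 𝓞 (fieldE χ)) ∈ 𝔐.comap (toZbar (fieldE χ))
  rw [Ideal.mem_comap, map_natCast]
  exact hp𝔐

/-- the comparison map `𝓞 E ⧸ v → ℤbar ⧸ 𝔐`. -/
noncomputable def quotMap :
    (𝓞 (fieldE χ) ⧸ (primeV χ p 𝔐 hp𝔐).asIdeal) →+* (integralClosure ℤ ℂ ⧸ 𝔐) :=
  Ideal.quotientMap (I := (primeV χ p 𝔐 hp𝔐).asIdeal) 𝔐 (toZbar (fieldE χ)) (le_of_eq rfl)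

omit [Module.Finite ℤ T] in
theorem quotMap_mk (x : 𝓞 (fieldE χ)) :
    quotMap χ p 𝔐 hp𝔐 (Ideal.Quotient.mk _ x) = Ideal.Quotient.mk 𝔐 (toZbar (fieldE χ) x) := by
  rw [quotMap, Ideal.quotientMap_mk]

include hp𝔐 in
/-- **(R3*)** A complete DVR receiving `T`, with residue field mapping to
`integralClosure ℤ ℂ ⧸ 𝔐` compatibly with `χ`. -/
theorem exists_completeDVR :
    ∃ (𝒪' : Type) (_ : CommRing 𝒪') (_ : IsDomain 𝒪') (_ : IsDiscreteValuationRing 𝒪')
      (_ : IsAdicComplete (maximalIdeal 𝒪') 𝒪') (_ : Finite (ResidueField 𝒪')) (_ : CharZero 𝒪')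
      (ι : T →+* 𝒪') (ψ : ResidueField 𝒪' →+* (integralClosure ℤ ℂ ⧸ 𝔐)),
      (p : 𝒪') ∈ maximalIdeal 𝒪' ∧
      ∀ t : T, ψ (residue 𝒪' (ι t)) = Ideal.Quotient.mk 𝔐 (χ t) := by
  have hfin : Finite (𝓞 (fieldE χ) ⧸ (primeV χ p 𝔐 hp𝔐).asIdeal) :=
    Ideal.finiteQuotientOfFreeOfNeBot _ (primeV χ p 𝔐 hp𝔐).ne_bot
  have hfin' : Finite (ResidueField ((primeV χ p 𝔐 hp𝔐).adicCompletionIntegers (fieldE χ))) :=
    finite_residueField (fieldE χ) (primeV χ p 𝔐 hp𝔐)
  refine ⟨(primeV χ p 𝔐 hp𝔐).adicCompletionIntegers (fieldE χ), inferInstance, inferInstance,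
    inferInstance, isAdicComplete (fieldE χ) (primeV χ p 𝔐 hp𝔐), hfin',
    charZero (fieldE χ) (primeV χ p 𝔐 hp𝔐),
    (algebraMap (𝓞 (fieldE χ)) ((primeV χ p 𝔐 hp𝔐).adicCompletionIntegers (fieldE χ))).comp
      (chiO χ),
    (quotMap χ p 𝔐 hp𝔐).comp (residueEquiv (fieldE χ) (primeV χ p 𝔐 hp𝔐)).symm.toRingHom, ?_, ?_⟩
  · have h1 : ((p : ℕ) : (primeV χ p 𝔐 hp𝔐).adicCompletionIntegers (fieldE χ))
        = algebraMap (𝓞 (fieldE χ)) ((primeV χ p 𝔐 hp𝔐).adicCompletionIntegers (fieldE χ))
          (p : 𝓞 (fieldE χ)) := by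
      rw [map_natCast]
    rw [h1, algebraMap_mem_maximalIdeal_iff]
    exact natCast_mem_primeV χ p 𝔐 hp𝔐
  · intro t
    rw [RingHom.comp_apply, RingHom.comp_apply, ← residueEquiv_mk]
    show (quotMap χ p 𝔐 hp𝔐)
      ((residueEquiv (fieldE χ) (primeV χ p 𝔐 hp𝔐)).symm
        ((residueEquiv (fieldE χ) (primeV χ p 𝔐 hp𝔐)) _)) = _
    rw [RingEquiv.symm_apply_apply, quotMap_mk, toZbar_chiO]

end PartB

end Fermat.Agent.ES.J7.CompleteDVR1
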