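/-
Program J, chapter J7 — helper4 (integrator of S29 / S42).  **CONTRACTS** of the chapter and the
literal target statements, as `Prop`s (no proofs here; the proofs land in separate files):

* `S30Stmt`          : the statement S30 (literal shape; supplied by the integrator of S30);
* `EigenCharStmt`    : (R1)+(R2) a normalised eigenform has an integral eigencharacter on the anemic
                       Hecke algebra with `χ_g(T_ℓ) = a_ℓ(g)`                         [helper1];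
* `CompleteDVRStmt`  : (R3*) a character with values in `ℤbar := integralClosure ℤ ℂ` and a residue map
                       `φ : ℤbar →+* k` (char `p`) factor through a complete DVR with finite residue
                       field (Mathlib only);
* `S29Stmt`          : the statement S29 (literal shape);
* `FreyLevelStmt`    : the mod-`p` representation of the Frey curve factors through a finite level;
* `S42Stmt`          : the statement S42 (literal shape).

`S29ofS30_4.s29_of_contracts : S30Stmt → EigenCharStmt → CompleteDVRStmt → S29Stmt` and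
`S42ofS29_4.s42_of_contracts : S29Stmt → FreyLevelStmt → S42Stmt` are proved in the next files.
-/
import Mathlib
import Fermat.Prelude.Def_CuspForm_HeckeGaloisRepDatum
import Fermat.Prelude.Def_GaloisRep_Residual
import Fermat.Prelude.Def_FreyPackage_EigenformResidualAttachment

set_option autoImplicit false

open Polynomial

namespace Fermat.Agent.ES.J7.Skeleton4

/-- `ℤbar ⊂ ℂ`. -/
abbrev Zbar : Type := integralClosure ℤ ℂ

/-- **S30**, literal shape. -/
def S30Stmt : Prop :=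
  ∀ (p : ℕ) [Fact p.Prime] (N : ℕ) [NeZero N] (S : Finset ℕ)
    (_hpS : p ∈ S) (_hNS : ∀ q : ℕ, q.Prime → q ∣ N → q ∈ S)
    (𝒪' : Type) [CommRing 𝒪'] [IsDomain 𝒪'] [IsDiscreteValuationRing 𝒪']
    [IsAdicComplete (IsLocalRing.maximalIdeal 𝒪') 𝒪'] [Finite (IsLocalRing.ResidueField 𝒪')]
    [CharZero 𝒪'] (_hp𝒪' : (p : 𝒪') ∈ IsLocalRing.maximalIdeal 𝒪')
    (χ : CuspForm.heckeAlgebra N 2 (↑S : Set ℕ) →+* 𝒪'),
    ∃ (𝒪'' : Type) (_ : CommRing 𝒪'') (_ : IsDomain 𝒪'') (_ : IsDiscreteValuationRing 𝒪'')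
      (_ : IsAdicComplete (IsLocalRing.maximalIdeal 𝒪'') 𝒪'')
      (_ : Finite (IsLocalRing.ResidueField 𝒪'')) (_ : CharZero 𝒪'')
      (_ : Algebra 𝒪' 𝒪'') (_ : Module.Finite 𝒪' 𝒪'') (_ : IsLocalHom (algebraMap 𝒪' 𝒪'')),
    Function.Injective (algebraMap 𝒪' 𝒪'') ∧
    ∃ ρ : GaloisRepAdic 𝒪'',
      (∀ (ℓ : ℕ) (hℓ : ℓ.Prime) (hℓN : ¬ ℓ ∣ N) (hℓS : ℓ ∉ (↑S : Set ℕ)),
        ∀ A : ValuationSubring (AlgebraicClosure ℚ), A.LiesOverPrime ℓ →
          ∀ σ : AlgebraicClosure ℚ ≃ₐ[ℚ] AlgebraicClosure ℚ, A.IsFrobeniusAt σ ℓ →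
            LinearMap.charpoly (ρ.ρ σ) =
              X ^ 2 - C (algebraMap 𝒪' 𝒪'' (χ (CuspForm.heckeAlgebra.T hℓ hℓN hℓS))) * X
                + C ((ℓ : 𝒪''))) ∧
      (∀ q : ℕ, q.Prime → ¬ q ∣ N → q ≠ p → ρ.IsUnramifiedAt q)

/-- **(R1)+(R2)**: the integral eigencharacter of a normalised eigenform on the anemic Hecke algebra
(`S` contains the primes dividing `N`, so there is no `U_q`). -/
def EigenCharStmt : Prop :=
  ∀ (N : ℕ) [NeZero N] (g : CuspForm (CongruenceSubgroup.Gamma0 N) 2),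
    g.IsNormalizedEigenform → ∀ (S : Finset ℕ), (∀ q : ℕ, q.Prime → q ∣ N → q ∈ S) →
    ∃ χ : CuspForm.heckeAlgebra N 2 (↑S : Set ℕ) →+* Zbar,
      ∀ (ℓ : ℕ) (hℓ : ℓ.Prime) (hℓN : ¬ ℓ ∣ N) (hℓS : ℓ ∉ (↑S : Set ℕ)),
        ((χ (CuspForm.heckeAlgebra.T hℓ hℓN hℓS) : Zbar) : ℂ) = ModularFormClass.qCoeff g ℓ

/-- **(R3\*)**: a `ℤbar`-valued character of a ring that is a finite `ℤ`-module, together with a
residue map `φ : ℤbar →+* k` in characteristic `p`, factors through a complete DVR `𝒪'` of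
characteristic zero with finite residue field, compatibly with `φ`; the residue field of `𝒪'`
lands in `φ(ℤbar)`. -/
def CompleteDVRStmt : Prop :=
  ∀ (T : Type) [CommRing T] [Module.Finite ℤ T] (χ : T →+* Zbar) (p : ℕ) [Fact p.Prime]
    (k : Type) [Field k] [CharP k p] (φ : Zbar →+* k),
    ∃ (𝒪' : Type) (_ : CommRing 𝒪') (_ : IsDomain 𝒪') (_ : IsDiscreteValuationRing 𝒪')
      (_ : IsAdicComplete (IsLocalRing.maximalIdeal 𝒪') 𝒪')
      (_ : Finite (IsLocalRing.ResidueField 𝒪')) (_ : CharZero 𝒪'),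
      (p : 𝒪') ∈ IsLocalRing.maximalIdeal 𝒪' ∧
      ∃ (χ' : T →+* 𝒪') (ψ : IsLocalRing.ResidueField 𝒪' →+* k),
        (∀ t : T, ψ (IsLocalRing.residue 𝒪' (χ' t)) = φ (χ t)) ∧
        ∀ x : IsLocalRing.ResidueField 𝒪', ψ x ∈ φ.range

/-- **S29**, literal shape. -/
def S29Stmt : Prop :=
  ∀ {N : ℕ} {g : CuspForm (CongruenceSubgroup.Gamma0 N) 2} (_ : g.IsNormalizedEigenform)
    {p : ℕ} (_ : p.Prime) {k : Type} [Field k] [CharP k p]
    (φ : integralClosure ℤ ℂ →+* k),
    ∃ ρ : ResidualGaloisRep k, ρ.IsAttachedTo g φ ∧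
      ∀ ℓ : ℕ, ℓ.Prime → ¬ ℓ ∣ N * p → ρ.IsUnramifiedAt ℓ

/-- The mod-`p` representation of the Frey curve factors through a finite level. -/
def FreyLevelStmt : Prop :=
  ∀ P : FreyPackage, GaloisFactorsThroughFiniteLevel
    (WeierstrassCurve.Affine.Point.galoisRepModuleEnd (S := ℚ) (K := AlgebraicClosure ℚ)
      P.freyCurve P.p)

/-- **S42**, literal shape. -/
def S42Stmt : Prop :=
  ∀ P : FreyPackage, ∀ M : ℕ, 0 < M → P.EigenformResidualAttachmentAt M

end Fermat.Agent.ES.J7.Skeleton4
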