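/-
Program J / J7 (R1): a normalised eigenform in the `q`-coefficient sense of the Prelude
(`CuspForm.IsNormalizedEigenform`) is an eigenvector of every `T_ℓ` (`ℓ ∤ N`) and of every `U_q`
(`q ∣ N`), with eigenvalue its `ℓ`-th (`q`-th) `q`-coefficient.
-/
import Mathlib
import Fermat.Agent.S49.H25QCoeff

set_option autoImplicit false
open CuspForm CongruenceSubgroup ModularFormClass

namespace Fermat.Agent.ES.J7.EigenVec1

open Fermat.Agent.S49.H25

variable {N : ℕ}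

/-- `a_{ℓ^{r+1}} + ℓ a_{ℓ^{r-1}} = a_ℓ a_{ℓ^r}` packaged for all `n`. -/
theorem coeff_rel_T {g : CuspForm (Gamma0 N) 2} (hg : g.IsNormalizedEigenform) {l : ℕ}
    (hl : l.Prime) (hlN : ¬ l ∣ N) (n : ℕ) :
    qCoeff g (n * l) + (if l ∣ n then (l : ℂ) * qCoeff g (n / l) else 0)
      = qCoeff g l * qCoeff g n := by
  rcases Nat.eq_zero_or_pos n with rfl | hn
  · simp [qCoeff_cusp_zero]
  obtain ⟨r, m, hm, rfl⟩ := Nat.exists_eq_pow_mul_and_not_dvd hn.ne' l hl.ne_one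
  have hcop : ∀ s : ℕ, (l ^ s).Coprime m := fun s =>
    Nat.Coprime.pow_left s ((Nat.Prime.coprime_iff_not_dvd hl).mpr hm)
  have h1 : l ^ r * m * l = l ^ (r + 1) * m := by ring
  rw [h1, hg.qCoeff_mul_of_coprime _ _ (hcop (r + 1)), hg.qCoeff_mul_of_coprime _ _ (hcop r)]
  cases r with
  | zero =>
    have hnd : ¬ l ∣ l ^ 0 * m := by simpa using hm
    rw [if_neg hnd]
    simp [hg.qCoeff_one]
  | succ r =>
    have hd : l ∣ l ^ (r + 1) * m := Dvd.dvd.mul_right (dvd_pow_self l (Nat.succ_ne_zero r)) m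
    have hdiv : l ^ (r + 1) * m / l = l ^ r * m := by
      rw [pow_succ, mul_assoc, mul_comm l m, ← mul_assoc]
      exact Nat.mul_div_cancel _ hl.pos
    rw [if_pos hd, hdiv, hg.qCoeff_mul_of_coprime _ _ (hcop r),
      hg.qCoeff_prime_pow_of_not_dvd l r hl hlN]
    ring

theorem coeff_rel_U {g : CuspForm (Gamma0 N) 2} (hg : g.IsNormalizedEigenform) {q : ℕ}
    (hq : q.Prime) (hqN : q ∣ N) (n : ℕ) :
    qCoeff g (n * q) = qCoeff g q * qCoeff g n := by
  rcases Nat.eq_zero_or_pos n with rfl | hn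
  · simp [qCoeff_cusp_zero]
  obtain ⟨r, m, hm, rfl⟩ := Nat.exists_eq_pow_mul_and_not_dvd hn.ne' q hq.ne_one
  have hcop : ∀ s : ℕ, (q ^ s).Coprime m := fun s =>
    Nat.Coprime.pow_left s ((Nat.Prime.coprime_iff_not_dvd hq).mpr hm)
  have h1 : q ^ r * m * q = q ^ (r + 1) * m := by ring
  rw [h1, hg.qCoeff_mul_of_coprime _ _ (hcop (r + 1)), hg.qCoeff_mul_of_coprime _ _ (hcop r)]
  cases r with
  | zero => simp [hg.qCoeff_one]
  | succ r =>
    rw [hg.qCoeff_prime_pow_of_dvd q r hq hqN]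
    ring

/-- **(R1)** A normalised eigenform is a `T_ℓ`-eigenvector with eigenvalue `a_ℓ`. -/
theorem heckeTLin_eq_smul {g : CuspForm (Gamma0 N) 2} (hg : g.IsNormalizedEigenform) {l : ℕ}
    (hl : l.Prime) (hlN : ¬ l ∣ N) :
    heckeTLin 2 hl hlN g = qCoeff g l • g := by
  rw [← sub_eq_zero]
  refine eq_zero_of_qCoeff _ fun n => ?_
  rw [qCoeff_sub, qCoeff_heckeTLin, qCoeff_smul, coeff_rel_T hg hl hlN, sub_self]

/-- A normalised eigenform is a `U_q`-eigenvector with eigenvalue `a_q`. -/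
theorem heckeULin_eq_smul [NeZero N] {g : CuspForm (Gamma0 N) 2} (hg : g.IsNormalizedEigenform)
    {q : ℕ} (hq : q.Prime) (hqN : q ∣ N) :
    heckeULin 2 hqN g = qCoeff g q • g := by
  rw [← sub_eq_zero]
  refine eq_zero_of_qCoeff _ fun n => ?_
  rw [qCoeff_sub, qCoeff_heckeULin hq, qCoeff_smul, coeff_rel_U hg hq hqN, sub_self]

theorem isHeckeEigen [NeZero N] {g : CuspForm (Gamma0 N) 2} (hg : g.IsNormalizedEigenform) :
    IsHeckeEigen g (fun l => qCoeff g l) where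
  hT _ hp hpN := heckeTLin_eq_smul hg hp hpN
  hU _ hp hpN := heckeULin_eq_smul hg hp hpN

end Fermat.Agent.ES.J7.EigenVec1
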