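/-
Program J / J7 (R2): the eigencharacter of a normalised eigenform,
`chiG hg S : heckeAlgebra N 2 S →+* integralClosure ℤ ℂ`, with `chiG (T_ℓ) = a_ℓ(g)`.
-/
import Mathlib
import Fermat.Agent.ES.J7.EigenVec1
import Fermat.Agent.S22

set_option autoImplicit false
open CuspForm CongruenceSubgroup ModularFormClass

namespace Fermat.Agent.ES.J7.EigenChar1

open Fermat.Agent.S49.H25 Fermat.Agent.ES.J7.EigenVec1

variable {N : ℕ} [NeZero N]

/-- The `ℤ`-subalgebra of the operators having `g` as an eigenvector. -/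
def eigenSub (g : CuspForm (Gamma0 N) 2) :
    Subalgebra ℤ (Module.End ℂ (CuspForm (Gamma0 N) 2)) where
  carrier := {T | ∃ c : ℂ, T g = c • g}
  mul_mem' := by
    rintro T T' ⟨c, hc⟩ ⟨c', hc'⟩
    exact ⟨c' * c, by rw [Module.End.mul_apply, hc', map_smul, hc, smul_smul]⟩
  one_mem' := ⟨1, by simp⟩
  add_mem' := by
    rintro T T' ⟨c, hc⟩ ⟨c', hc'⟩
    exact ⟨c + c', by rw [LinearMap.add_apply, hc, hc', add_smul]⟩
  zero_mem' := ⟨0, by simp⟩
  algebraMap_mem' r := ⟨(r : ℂ), by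
    rw [Algebra.algebraMap_eq_smul_one, LinearMap.smul_apply, Module.End.one_apply,
      Int.cast_smul_eq_zsmul]⟩

omit [NeZero N] in
theorem mem_eigenSub {g : CuspForm (Gamma0 N) 2} {T : Module.End ℂ (CuspForm (Gamma0 N) 2)} :
    T ∈ eigenSub g ↔ ∃ c : ℂ, T g = c • g := Iff.rfl

theorem heckeAlgebra_le_eigenSub {g : CuspForm (Gamma0 N) 2} (hg : g.IsNormalizedEigenform)
    (S : Set ℕ) : heckeAlgebra N 2 S ≤ eigenSub g := by
  refine Algebra.adjoin_le ?_
  rintro T (⟨l, hl, hlN, -, rfl⟩ | ⟨q, hqN, hq, -, rfl⟩)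
  · exact ⟨_, heckeTLin_eq_smul hg hl hlN⟩
  · exact ⟨_, heckeULin_eq_smul hg hq hqN⟩

theorem exists_eigenvalue {g : CuspForm (Gamma0 N) 2} (hg : g.IsNormalizedEigenform)
    {S : Set ℕ} (t : heckeAlgebra N 2 S) :
    ∃ c : ℂ, (t : Module.End ℂ (CuspForm (Gamma0 N) 2)) g = c • g :=
  heckeAlgebra_le_eigenSub hg S t.2

omit [NeZero N] in
/-- The eigenvalue is the first `q`-coefficient of `t g`. -/
theorem eigenvalue_eq {g : CuspForm (Gamma0 N) 2} (hg : g.IsNormalizedEigenform)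
    {T : Module.End ℂ (CuspForm (Gamma0 N) 2)} {c : ℂ} (h : T g = c • g) :
    qCoeff (⇑(T g)) 1 = c := by
  rw [h, qCoeff_smul, hg.qCoeff_one, mul_one]

theorem apply_eq_smul {g : CuspForm (Gamma0 N) 2} (hg : g.IsNormalizedEigenform)
    {S : Set ℕ} (t : heckeAlgebra N 2 S) :
    (t : Module.End ℂ (CuspForm (Gamma0 N) 2)) g
      = qCoeff (⇑((t : Module.End ℂ (CuspForm (Gamma0 N) 2)) g)) 1 • g := by
  obtain ⟨c, hc⟩ := exists_eigenvalue hg t
  rw [eigenvalue_eq hg hc, hc]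

/-- The complex eigencharacter. -/
noncomputable def chiC {g : CuspForm (Gamma0 N) 2} (hg : g.IsNormalizedEigenform) (S : Set ℕ) :
    heckeAlgebra N 2 S →+* ℂ where
  toFun t := qCoeff (⇑((t : Module.End ℂ (CuspForm (Gamma0 N) 2)) g)) 1
  map_one' := by
    show qCoeff (⇑((1 : Module.End ℂ (CuspForm (Gamma0 N) 2)) g)) 1 = 1
    rw [Module.End.one_apply, hg.qCoeff_one]
  map_mul' t t' := by
    show qCoeff (⇑(((t : Module.End ℂ (CuspForm (Gamma0 N) 2))
      * (t' : Module.End ℂ (CuspForm (Gamma0 N) 2))) g)) 1 = _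
    rw [Module.End.mul_apply]
    conv_lhs => rw [apply_eq_smul hg t', map_smul, qCoeff_smul]
    rw [mul_comm]
  map_zero' := by
    show qCoeff (⇑((0 : Module.End ℂ (CuspForm (Gamma0 N) 2)) g)) 1 = 0
    rw [LinearMap.zero_apply, qCoeff_zero_form]
  map_add' t t' := by
    show qCoeff (⇑(((t : Module.End ℂ (CuspForm (Gamma0 N) 2))
      + (t' : Module.End ℂ (CuspForm (Gamma0 N) 2))) g)) 1 = _
    rw [LinearMap.add_apply, qCoeff_add]

theorem chiC_apply {g : CuspForm (Gamma0 N) 2} (hg : g.IsNormalizedEigenform) (S : Set ℕ)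
    (t : heckeAlgebra N 2 S) :
    chiC hg S t = qCoeff (⇑((t : Module.End ℂ (CuspForm (Gamma0 N) 2)) g)) 1 := rfl

theorem chiC_spec {g : CuspForm (Gamma0 N) 2} (hg : g.IsNormalizedEigenform) (S : Set ℕ)
    (t : heckeAlgebra N 2 S) :
    (t : Module.End ℂ (CuspForm (Gamma0 N) 2)) g = chiC hg S t • g :=
  apply_eq_smul hg t

theorem chiC_T {g : CuspForm (Gamma0 N) 2} (hg : g.IsNormalizedEigenform) {S : Set ℕ} {l : ℕ}
    (hl : l.Prime) (hlN : ¬ l ∣ N) (hlS : l ∉ S) :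
    chiC hg S (heckeAlgebra.T hl hlN hlS) = qCoeff g l := by
  rw [chiC_apply, heckeAlgebra.coe_T]
  exact eigenvalue_eq hg (heckeTLin_eq_smul hg hl hlN)

theorem chiC_U {g : CuspForm (Gamma0 N) 2} (hg : g.IsNormalizedEigenform) {S : Set ℕ} {q : ℕ}
    (hq : q.Prime) (hqN : q ∣ N) (hqS : q ∉ S) :
    chiC hg S (heckeAlgebra.U hq hqN hqS) = qCoeff g q := by
  rw [chiC_apply, heckeAlgebra.coe_U]
  exact eigenvalue_eq hg (heckeULin_eq_smul hg hq hqN)

theorem isIntegral_chiC {g : CuspForm (Gamma0 N) 2} (hg : g.IsNormalizedEigenform) (S : Set ℕ)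
    (t : heckeAlgebra N 2 S) : IsIntegral ℤ (chiC hg S t) := by
  have : Module.Finite ℤ (heckeAlgebra N 2 S) := Fermat.Agent.S22.result N 2 S
  have h : IsIntegral ℤ t := Algebra.IsIntegral.isIntegral t
  exact h.map (chiC hg S).toIntAlgHom

/-- **(R2)** The eigencharacter with values in the algebraic integers. -/
noncomputable def chiG {g : CuspForm (Gamma0 N) 2} (hg : g.IsNormalizedEigenform) (S : Set ℕ) :
    heckeAlgebra N 2 S →+* integralClosure ℤ ℂ :=
  (chiC hg S).codRestrict (integralClosure ℤ ℂ).toSubring fun t => isIntegral_chiC hg S t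

theorem coe_chiG {g : CuspForm (Gamma0 N) 2} (hg : g.IsNormalizedEigenform) (S : Set ℕ)
    (t : heckeAlgebra N 2 S) : ((chiG hg S t : integralClosure ℤ ℂ) : ℂ) = chiC hg S t := rfl

theorem coe_chiG_T {g : CuspForm (Gamma0 N) 2} (hg : g.IsNormalizedEigenform) {S : Set ℕ} {l : ℕ}
    (hl : l.Prime) (hlN : ¬ l ∣ N) (hlS : l ∉ S) :
    ((chiG hg S (heckeAlgebra.T hl hlN hlS) : integralClosure ℤ ℂ) : ℂ) = qCoeff g l := by
  rw [coe_chiG, chiC_T]

/-- The range of the eigencharacter is a finitely generated `ℤ`-module. -/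
theorem fg_range_chiG {g : CuspForm (Gamma0 N) 2} (hg : g.IsNormalizedEigenform) (S : Set ℕ) :
    (chiG hg S).toIntAlgHom.range.toSubmodule.FG := by
  have : Module.Finite ℤ (heckeAlgebra N 2 S) := Fermat.Agent.S22.result N 2 S
  have h := (Module.Finite.fg_top (R := ℤ) (M := heckeAlgebra N 2 S)).map
    (chiG hg S).toIntAlgHom.toLinearMap
  rw [Submodule.map_top] at h
  exact h

end Fermat.Agent.ES.J7.EigenChar1
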