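/-
Program J / J7: the two leaf contracts of `Skeleton4` proved:
`eigenChar : Skeleton4.EigenCharStmt` ((R1)+(R2)) and `completeDVR : Skeleton4.CompleteDVRStmt` ((R3*)).
-/
import Mathlib
import Fermat.Agent.ES.J7.Skeleton4
import Fermat.Agent.ES.J7.EigenChar1
import Fermat.Agent.ES.J7.CompleteDVR1

set_option autoImplicit false

open IsLocalRing

namespace Fermat.Agent.ES.J7.Contracts1

open Fermat.Agent.ES.J7.Skeleton4

/-- **(R1)+(R2)** -/
theorem eigenChar : EigenCharStmt := by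
  intro N _ g hg S _
  exact ⟨EigenChar1.chiG hg (↑S : Set ℕ), fun ℓ hℓ hℓN hℓS => EigenChar1.coe_chiG_T hg hℓ hℓN hℓS⟩

/-- **(R3\*)** -/
theorem completeDVR : CompleteDVRStmt := by
  intro T _ _ χ p _ k _ _ φ
  have hp𝔐 : (p : Zbar) ∈ RingHom.ker φ := by
    rw [RingHom.mem_ker, map_natCast]
    exact CharP.cast_eq_zero k p
  have : (RingHom.ker φ).IsPrime := RingHom.ker_isPrime φ
  obtain ⟨𝒪', i1, i2, i3, i4, i5, i6, ι, ψ, hp, hψ⟩ :=
    CompleteDVR1.exists_completeDVR χ p (RingHom.ker φ) hp𝔐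
  refine ⟨𝒪', i1, i2, i3, i4, i5, i6, hp, ι, (RingHom.kerLift φ).comp ψ, fun t => ?_, fun x => ?_⟩
  · rw [RingHom.comp_apply, hψ, RingHom.kerLift_mk]
  · rw [RingHom.comp_apply]
    obtain ⟨z, hz⟩ := Ideal.Quotient.mk_surjective (ψ x)
    rw [← hz, RingHom.kerLift_mk]
    exact ⟨z, rfl⟩

end Fermat.Agent.ES.J7.Contracts1
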