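/-
Program J, chapter J7 (helper17): the contract `Skeleton4.FreyLevelStmt` — the mod-`p` representation of
the Frey curve factors through a finite level (the field generated by the coordinates of the finitely
many `p`-torsion points).  Inputs: `S13/FreyTorsion.finite_torsion`, `S13/UnramMain.coordSet`.
-/
import Mathlib
import Fermat.Agent.ES.J7.Skeleton4
import Fermat.Agent.S13.FreyTorsion
import Fermat.Agent.S13.UnramMain

set_option autoImplicit false

open WeierstrassCurve WeierstrassCurve.Affine WeierstrassCurve.Affine.Point

namespace Fermat.Agent.ES.J7.FreyLevel17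

open Fermat.Agent.S13.UnramMain

/-- The `n`-torsion representation of a Weierstrass curve over `ℚ` with finite `n`-torsion over `ℚ̄`
factors through a finite level. -/
theorem factorsThroughFiniteLevel_torsion (W' : Affine ℚ) (n : ℕ)
    [Finite (Submodule.torsionBy ℤ (W'⁄(AlgebraicClosure ℚ)).Point n)] :
    GaloisFactorsThroughFiniteLevel
      (galoisRepModuleEnd (S := ℚ) (K := AlgebraicClosure ℚ) W' n) := by
  have hfin : (coordSet W' n).Finite := coordSet_finite
  have : Finite (coordSet W' n) := hfin.to_subtype
  have hfd : FiniteDimensional ℚ (IntermediateField.adjoin ℚ (coordSet W' n)) :=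
    IntermediateField.finiteDimensional_adjoin
      (fun x _ => (Algebra.IsAlgebraic.isAlgebraic (R := ℚ) x).isIntegral)
  refine ⟨IntermediateField.adjoin ℚ (coordSet W' n), hfd, fun σ hσ => ?_⟩
  apply LinearMap.ext
  intro x
  rw [galoisRepModuleEnd_apply]
  exact smul_eq_self_of_coordSet σ
    (fun z hz => hσ z (IntermediateField.subset_adjoin ℚ _ hz)) x

/-- **The contract `FreyLevelStmt`.** -/
theorem freyLevel : Fermat.Agent.ES.J7.Skeleton4.FreyLevelStmt := fun P =>
  haveI := Fermat.Agent.S13.FreyTorsion.finite_torsion P
  factorsThroughFiniteLevel_torsion P.freyCurve P.p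

end Fermat.Agent.ES.J7.FreyLevel17
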