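/-
Program J, chapter J7 — helper4 (integrator of S29 / S42).  **S29 from S30** modulo the two leaves
`EigenCharStmt` (R1+R2) and `CompleteDVRStmt` (R3*) of `Skeleton4`:

  `s29_of_contracts : S30Stmt → EigenCharStmt → CompleteDVRStmt → S29Stmt`.

Steps (R4)–(R7) of `J_CH6_13.md`: `N = 0` is vacuous (trivial representation on `k²`); for `N ≠ 0`,
`S := {p} ∪ primeFactors N`, the eigencharacter `χ_g : 𝕋_S → ℤbar`, a complete DVR `𝒪'` receiving it
compatibly with `φ`, S30 gives `ρ` over a finite extension `𝒪''`; reduce mod `𝔪''` and extend scalars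
along `κ'' → ℤbar/ker φ ↪ k` (`ℤbar/ker φ` is algebraically closed).
-/
import Mathlib
import Fermat.Agent.ES.J7.Skeleton4
import Fermat.Agent.S22

set_option autoImplicit false
set_option linter.unusedSectionVars false
set_option linter.style.haveILetI false

open Polynomial IsLocalRing

noncomputable section

namespace Fermat.Agent.ES.J7.S29ofS30_4

open Fermat.Agent.ES.J7.Skeleton4

/-! ### the trivial residual representation -/

/-- The trivial two-dimensional residual representation. -/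
def trivialRep (k : Type) [Field k] : ResidualGaloisRep k where
  V := Fin 2 → k
  finrank_eq := by simp
  ρ := 1
  factorsThroughFiniteLevel := ⟨⊥, inferInstance, fun _ _ => rfl⟩

/-! ### `ℤbar / 𝔪` is algebraically closed -/

/-- Every monic polynomial of positive degree over `ℤbar` has a root in `ℤbar`. -/
theorem exists_root_Zbar (f : Zbar[X]) (hf : f.Monic) (hdeg : f.degree ≠ 0) :
    ∃ a : Zbar, f.eval a = 0 := by
  have hdeg' : (f.map (algebraMap Zbar ℂ)).degree ≠ 0 := by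
    rwa [hf.degree_map]
  obtain ⟨z, hz⟩ := IsAlgClosed.exists_root (f.map (algebraMap Zbar ℂ)) hdeg'
  have hzint : IsIntegral Zbar z := ⟨f, hf, by rwa [IsRoot, eval_map] at hz⟩
  have hzZ : IsIntegral ℤ z := isIntegral_trans (A := Zbar) z hzint
  refine ⟨⟨z, hzZ⟩, ?_⟩
  have hinj : Function.Injective (algebraMap Zbar ℂ) := Subtype.val_injective
  apply hinj
  rw [map_zero, ← eval₂_at_apply, ← eval_map]
  exact hz

variable {k : Type} [Field k] (φ : Zbar →+* k)

/-- the kernel of a residue map in characteristic `p` is a maximal ideal. -/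
theorem ker_isMaximal (p : ℕ) [Fact p.Prime] [CharP k p] : (RingHom.ker φ).IsMaximal := by
  have hp : p.Prime := Fact.out
  haveI : (RingHom.ker φ).IsPrime := RingHom.ker_isPrime φ
  have hint : Algebra.IsIntegral ℤ Zbar := inferInstance
  have hcomap : (RingHom.ker φ).comap (algebraMap ℤ Zbar) = Ideal.span {(p : ℤ)} := by
    ext n
    rw [Ideal.mem_comap, RingHom.mem_ker, Ideal.mem_span_singleton]
    rw [show φ (algebraMap ℤ Zbar n) = ((n : ℤ) : k) from by simp]
    exact CharP.intCast_eq_zero_iff k p n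
  have hmax : ((RingHom.ker φ).comap (algebraMap ℤ Zbar)).IsMaximal := by
    rw [hcomap]
    exact PrincipalIdealRing.isMaximal_of_irreducible
      (Nat.prime_iff_prime_int.mp hp).irreducible
  exact Ideal.isMaximal_of_isIntegral_of_isMaximal_comap (RingHom.ker φ) hmax

/-- `ℤbar / ker φ` is algebraically closed. -/
theorem isAlgClosed_kappa0 [hmax : (RingHom.ker φ).IsMaximal] :
    @IsAlgClosed (Zbar ⧸ RingHom.ker φ) (Ideal.Quotient.field (RingHom.ker φ)) := by
  letI : Field (Zbar ⧸ RingHom.ker φ) := Ideal.Quotient.field (RingHom.ker φ)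
  refine IsAlgClosed.of_exists_root _ fun f hf hirr => ?_
  have hsurj : Function.Surjective (Ideal.Quotient.mk (RingHom.ker φ)) :=
    Ideal.Quotient.mk_surjective
  have hl : f ∈ lifts (Ideal.Quotient.mk (RingHom.ker φ)) :=
    (lifts_iff_coeff_lifts f).mpr fun n => hsurj (f.coeff n)
  obtain ⟨F, hF, hFdeg, hFm⟩ := lifts_and_degree_eq_and_monic hl hf
  have hdeg : F.degree ≠ 0 := by
    rw [hFdeg]
    exact (degree_pos_of_irreducible hirr).ne'
  obtain ⟨a, ha⟩ := exists_root_Zbar F hFm hdeg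
  refine ⟨Ideal.Quotient.mk (RingHom.ker φ) a, ?_⟩
  rw [← hF, eval_map, eval₂_at_apply, ha, map_zero]

/-! ### the main reduction -/

/-- **S29 from S30** (modulo the eigencharacter and the complete DVR). -/
theorem s29_of_contracts (h30 : S30Stmt) (hE : EigenCharStmt) (hD : CompleteDVRStmt) :
    S29Stmt := by
  intro N g hg p hp k _ _ φ
  by_cases hN : N = 0
  · subst hN
    refine ⟨trivialRep k, ?_, ?_⟩
    · intro ℓ _ hℓN
      exact absurd (dvd_zero ℓ) hℓN
    · intro ℓ _ hℓN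
      exact absurd (by rw [zero_mul]; exact dvd_zero ℓ) hℓN
  haveI : NeZero N := ⟨hN⟩
  haveI : Fact p.Prime := ⟨hp⟩
  classical
  set S : Finset ℕ := insert p N.primeFactors with hS
  have hpS : p ∈ S := Finset.mem_insert_self _ _
  have hNS : ∀ q : ℕ, q.Prime → q ∣ N → q ∈ S := fun q hq hqN =>
    Finset.mem_insert_of_mem (Nat.mem_primeFactors.mpr ⟨hq, hqN, hN⟩)
  obtain ⟨χ, hχ⟩ := hE N g hg S hNS
  haveI : Module.Finite ℤ (CuspForm.heckeAlgebra N 2 (↑S : Set ℕ)) :=
    Fermat.Agent.S22.result N 2 (↑S : Set ℕ)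
  obtain ⟨𝒪', i1, i2, i3, i4, i5, i6, hp𝒪', χ', ψ, hψ, hψr⟩ :=
    hD (CuspForm.heckeAlgebra N 2 (↑S : Set ℕ)) χ p k φ
  obtain ⟨𝒪'', j1, j2, j3, j4, j5, j6, j7, j8, j9, -, ρ, hchar, hunr⟩ :=
    h30 p N S hpS hNS 𝒪' hp𝒪' χ'
  -- the residue fields
  haveI hmax : (RingHom.ker φ).IsMaximal := ker_isMaximal φ p
  letI : Field (Zbar ⧸ RingHom.ker φ) := Ideal.Quotient.field (RingHom.ker φ)
  haveI : IsAlgClosed (Zbar ⧸ RingHom.ker φ) := isAlgClosed_kappa0 φ
  -- `ψ` factors through `ℤbar / ker φ`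
  let e := RingHom.quotientKerEquivRange φ
  let ψ₀ : ResidueField 𝒪' →+* (Zbar ⧸ RingHom.ker φ) :=
    (e.symm : φ.range →+* (Zbar ⧸ RingHom.ker φ)).comp (ψ.codRestrict φ.range hψr)
  have hψ₀ : ∀ x, RingHom.kerLift φ (ψ₀ x) = ψ x := by
    intro x
    have h1 : ∀ y : Zbar ⧸ RingHom.ker φ, RingHom.kerLift φ y = (e y : k) := by
      intro y
      obtain ⟨z, rfl⟩ := Ideal.Quotient.mk_surjective y
      rfl
    rw [h1]
    show ((e (e.symm (ψ.codRestrict φ.range hψr x)) : φ.range) : k) = ψ x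
    rw [RingEquiv.apply_symm_apply]
    rfl
  letI : Algebra (ResidueField 𝒪') (ResidueField 𝒪'') :=
    (ResidueField.map (algebraMap 𝒪' 𝒪'')).toAlgebra
  letI : Algebra (ResidueField 𝒪') (Zbar ⧸ RingHom.ker φ) := ψ₀.toAlgebra
  haveI : Module.Finite (ResidueField 𝒪') (ResidueField 𝒪'') := Module.Finite.of_finite
  haveI : Algebra.IsAlgebraic (ResidueField 𝒪') (ResidueField 𝒪'') :=
    Algebra.IsAlgebraic.of_finite _ _
  let lft : ResidueField 𝒪'' →ₐ[ResidueField 𝒪'] (Zbar ⧸ RingHom.ker φ) :=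
    IsAlgClosed.lift
  let ψ'' : ResidueField 𝒪'' →+* k := (RingHom.kerLift φ).comp (lft : ResidueField 𝒪'' →+* _)
  have hψ'' : ∀ x : 𝒪', ψ'' (residue 𝒪'' (algebraMap 𝒪' 𝒪'' x)) = ψ (residue 𝒪' x) := by
    intro x
    have h1 : residue 𝒪'' (algebraMap 𝒪' 𝒪'' x) =
        algebraMap (ResidueField 𝒪') (ResidueField 𝒪'') (residue 𝒪' x) := rfl
    show RingHom.kerLift φ (lft (residue 𝒪'' (algebraMap 𝒪' 𝒪'' x))) = _
    rw [h1, lft.commutes]
    exact hψ₀ _
  -- the representation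
  refine ⟨ResidualGaloisRep.baseChangeAlong ψ'' ρ.residual, ?_, ?_⟩
  · intro ℓ hℓ hℓN hℓk A hA σ hσ
    have hℓp : ℓ ≠ p := by
      rintro rfl
      exact hℓk (CharP.cast_eq_zero k ℓ)
    have hℓS : ℓ ∉ (↑S : Set ℕ) := by
      rw [Finset.mem_coe, hS, Finset.mem_insert]
      rintro (h | h)
      · exact hℓp h
      · exact hℓN (Nat.dvd_of_mem_primeFactors h)
    refine ⟨χ (CuspForm.heckeAlgebra.T hℓ hℓN hℓS), hχ ℓ hℓ hℓN hℓS, ?_⟩
    have hc := hchar ℓ hℓ hℓN hℓS A hA σ hσ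
    letI : Algebra (ResidueField 𝒪'') k := ψ''.toAlgebra
    show LinearMap.charpoly (((ρ.ρ σ).baseChange (ResidueField 𝒪'')).baseChange k) = _
    rw [LinearMap.charpoly_baseChange, LinearMap.charpoly_baseChange, hc]
    simp only [Polynomial.map_add, Polynomial.map_sub, Polynomial.map_mul, Polynomial.map_pow,
      Polynomial.map_X, Polynomial.map_C, map_natCast, Polynomial.map_natCast]
    have h2 : algebraMap (ResidueField 𝒪'') k (algebraMap 𝒪'' (ResidueField 𝒪'')
        (algebraMap 𝒪' 𝒪'' (χ' (CuspForm.heckeAlgebra.T hℓ hℓN hℓS)))) =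
        φ (χ (CuspForm.heckeAlgebra.T hℓ hℓN hℓS)) := by
      show ψ'' (residue 𝒪'' (algebraMap 𝒪' 𝒪'' (χ' _))) = φ (χ _)
      rw [hψ'', hψ]
    rw [h2]
  · intro ℓ hℓ hℓNp A hA σ hσ
    have hℓN : ¬ ℓ ∣ N := fun h => hℓNp (Dvd.dvd.mul_right h p)
    have hℓp : ℓ ≠ p := by
      rintro rfl
      exact hℓNp (Dvd.intro_left N rfl)
    have h1 : ρ.ρ σ = 1 := hunr ℓ hℓ hℓN hℓp A hA σ hσ
    letI : Algebra (ResidueField 𝒪'') k := ψ''.toAlgebra
    show ((ρ.ρ σ).baseChange (ResidueField 𝒪'')).baseChange k = 1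
    rw [h1, LinearMap.baseChange_one, LinearMap.baseChange_one]

end Fermat.Agent.ES.J7.S29ofS30_4
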