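/-
Program J, chapter J7 — helper4 (integrator of S29 / S42).  **S42 from S29.**

* `freyLevel`        : `Skeleton4.FreyLevelStmt` (the mod-`p` representation of the Frey curve factors
                       through the number field generated by the coordinates of the `p`-torsion points;
                       finiteness of the `p`-torsion from `S13/FreyTorsion`);
* `trace_det_of_charpoly` : in rank 2, `charpoly f = X² - a X + b` gives `tr f = a`, `det f = b`;
* `s42_of_s29`       : `S29Stmt → S42Stmt`  (`k := ℤbar/𝔪`, `F :=` normal closure of the two levels).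
-/
import Mathlib
import Fermat.Agent.ES.J7.Skeleton4
import Fermat.Agent.S13.UnramMain
import Fermat.Agent.S13.FreyTorsion

set_option autoImplicit false
set_option linter.unusedSectionVars false
set_option linter.style.haveILetI false

open Polynomial IsLocalRing

noncomputable section

namespace Fermat.Agent.ES.J7.S42ofS29_4

open Fermat.Agent.ES.J7.Skeleton4
open WeierstrassCurve WeierstrassCurve.Affine WeierstrassCurve.Affine.Point

local notation "Qb" => AlgebraicClosure ℚ

local instance isAlgClosureQb4 : IsAlgClosure ℚ Qb := ⟨inferInstance, inferInstance⟩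
local instance normalQb4 : Normal ℚ Qb := IsAlgClosure.normal ℚ Qb

/-! ### a finite level for finitely many algebraic numbers -/

/-- Finitely many elements of `ℚ̄` lie in a number field. -/
theorem finiteDimensional_adjoin_of_finite (s : Set Qb) (hs : s.Finite) :
    FiniteDimensional ℚ (IntermediateField.adjoin ℚ s) := by
  haveI : Finite s := hs
  exact IntermediateField.finiteDimensional_adjoin
    (fun x _ => (Algebra.IsIntegral.isIntegral (R := ℚ) x))

/-- **The mod-`p` representation of the Frey curve factors through a finite level.** -/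
theorem freyLevel : FreyLevelStmt := by
  intro P
  classical
  haveI : Finite (Submodule.torsionBy ℤ (P.freyCurve⁄Qb).Point P.p) :=
    Fermat.Agent.S13.FreyTorsion.finite_torsion P
  have hfin : (Fermat.Agent.S13.UnramMain.coordSet (P.freyCurve.toAffine) P.p).Finite :=
    Fermat.Agent.S13.UnramMain.coordSet_finite
  refine ⟨IntermediateField.adjoin ℚ (Fermat.Agent.S13.UnramMain.coordSet (P.freyCurve.toAffine) P.p),
    finiteDimensional_adjoin_of_finite _ hfin, fun σ hσ => ?_⟩
  refine LinearMap.ext fun x => ?_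
  rw [galoisRepModuleEnd_apply, Module.End.one_apply]
  exact Fermat.Agent.S13.UnramMain.smul_eq_self_of_coordSet σ
    (fun z hz => hσ z (IntermediateField.subset_adjoin ℚ _ hz)) x

/-! ### trace and determinant from the characteristic polynomial in rank 2 -/

theorem trace_det_of_charpoly {K V : Type*} [Field K] [AddCommGroup V] [Module K V]
    [Module.Finite K V]
    (hV : Module.finrank K V = 2) (f : Module.End K V) (a b : K)
    (hf : LinearMap.charpoly f = X ^ 2 - C a * X + C b) :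
    LinearMap.trace K V f = a ∧ LinearMap.det f = b := by
  have hc0 : (LinearMap.charpoly f).coeff 0 = b := by
    rw [hf]; simp
  have hc1 : (LinearMap.charpoly f).coeff 1 = -a := by
    rw [hf]; simp [coeff_X_pow]
  constructor
  · let bs := Module.finBasisOfFinrankEq K V hV
    rw [LinearMap.trace_eq_matrix_trace K bs f, Matrix.trace_eq_neg_charpoly_coeff,
      LinearMap.charpoly_toMatrix, Fintype.card_fin, show 2 - 1 = 1 from rfl, hc1, neg_neg]
  · rw [LinearMap.det_eq_sign_charpoly_coeff, hV, hc0]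
    norm_num

/-- A number field inside `ℚ̄` lies in a finite Galois one. -/
theorem exists_galois_level (L : IntermediateField ℚ Qb) [FiniteDimensional ℚ L] :
    ∃ F : IntermediateField ℚ Qb, FiniteDimensional ℚ F ∧ Normal ℚ F ∧ L ≤ F :=
  ⟨IntermediateField.normalClosure ℚ ↥L Qb, inferInstance, normalClosure.normal ℚ ↥L Qb,
    IntermediateField.le_normalClosure _⟩

/-! ### S42 from S29 -/

/-- **S42 from S29.** -/
theorem s42_of_s29 (h29 : S29Stmt) : S42Stmt := by
  intro P M hM g hg 𝔪 h𝔪 hp𝔪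
  classical
  haveI : 𝔪.IsMaximal := h𝔪
  letI : Field (Zbar ⧸ 𝔪) := Ideal.Quotient.field 𝔪
  have hp0 : ((P.p : ℕ) : Zbar ⧸ 𝔪) = 0 := by
    have : (Ideal.Quotient.mk 𝔪) (P.p : Zbar) = 0 := Ideal.Quotient.eq_zero_iff_mem.mpr hp𝔪
    simpa using this
  haveI : Fact P.p.Prime := ⟨P.pp⟩
  haveI : CharP (Zbar ⧸ 𝔪) P.p := by
    obtain ⟨q, hq⟩ := CharP.exists (Zbar ⧸ 𝔪)
    have hdvd : q ∣ P.p := (CharP.cast_eq_zero_iff (Zbar ⧸ 𝔪) q P.p).mp hp0
    rcases (Nat.dvd_prime P.pp).mp hdvd with h1 | h1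
    · subst h1
      haveI := hq
      exact absurd rfl (CharP.char_ne_one (Zbar ⧸ 𝔪) 1)
    · subst h1
      exact hq
  letI : Algebra (ZMod P.p) (Zbar ⧸ 𝔪) := ZMod.algebra _ _
  obtain ⟨ρ, hatt, -⟩ := h29 hg P.pp (Ideal.Quotient.mk 𝔪)
  obtain ⟨L₁, hL₁, h1⟩ := ρ.factorsThroughFiniteLevel
  obtain ⟨L₂, hL₂, h2⟩ := freyLevel P
  haveI := hL₁
  haveI := hL₂
  haveI : FiniteDimensional ℚ ↥(L₁ ⊔ L₂) := inferInstance
  obtain ⟨F, hFfd, hFn, hle⟩ := exists_galois_level (L₁ ⊔ L₂)
  haveI := hFfd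
  haveI := hFn
  haveI : NumberField F := NumberField.mk
  haveI : IsGalois ℚ F := ⟨⟩
  have hfix : ∀ σ : Qb ≃ₐ[ℚ] Qb,
      σ ∈ (AlgEquiv.restrictNormalHom (F := ℚ) (K₁ := Qb) F).ker → ∀ x ∈ F, σ x = x := by
    intro σ hσ x hx
    have h := AlgEquiv.restrictNormal_commutes σ F ⟨x, hx⟩
    rw [MonoidHom.mem_ker] at hσ
    have h' : AlgEquiv.restrictNormal σ F = 1 := hσ
    rw [h'] at h
    exact h.symm
  refine ⟨Zbar ⧸ 𝔪, inferInstance, inferInstance, ρ.V, inferInstance, inferInstance, ρ.ρ,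
    Ideal.Quotient.mk 𝔪, F, inferInstance, inferInstance, inferInstance, inferInstance,
    inferInstance, ?_, ρ.finrank_eq, ?_, ?_, ?_⟩
  · intro x hx
    exact Ideal.Quotient.eq_zero_iff_mem.mpr hx
  · intro σ hσ
    have hF := hfix σ hσ
    refine Subgroup.mem_inf.mpr ⟨MonoidHom.mem_ker.mpr ?_, MonoidHom.mem_ker.mpr ?_⟩
    · exact h2 σ fun x hx => hF x (hle (le_sup_right (a := L₁) hx))
    · exact h1 σ fun x hx => hF x (hle (le_sup_left (b := L₂) hx))
  · intro ℓ hℓ hℓM hℓp A hA τ hτ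
    have hℓk : ((ℓ : ℕ) : Zbar ⧸ 𝔪) ≠ 0 := by
      intro h0
      have := (CharP.cast_eq_zero_iff (Zbar ⧸ 𝔪) P.p ℓ).mp h0
      exact hℓp ((Nat.prime_dvd_prime_iff_eq P.pp hℓ).mp this).symm
    obtain ⟨a, ha, hc⟩ := hatt ℓ hℓ hℓM hℓk A hA τ hτ
    exact ⟨a, ha, (trace_det_of_charpoly ρ.finrank_eq _ _ _ hc).1⟩
  · intro ℓ hℓ hℓM hℓp A hA τ hτ
    have hℓk : ((ℓ : ℕ) : Zbar ⧸ 𝔪) ≠ 0 := by
      intro h0
      have := (CharP.cast_eq_zero_iff (Zbar ⧸ 𝔪) P.p ℓ).mp h0
      exact hℓp ((Nat.prime_dvd_prime_iff_eq P.pp hℓ).mp this).symm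
    obtain ⟨a, ha, hc⟩ := hatt ℓ hℓ hℓM hℓk A hA τ hτ
    exact (trace_det_of_charpoly ρ.finrank_eq _ _ _ hc).2

end Fermat.Agent.ES.J7.S42ofS29_4
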