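/-
Program J, chapter J7 — helper4 (integrator of S29 / S42).  **S29 and S42 from S30, all leaves
discharged** (`Contracts1.eigenChar`, `Contracts1.completeDVR` by helper1; `freyLevel`):

* `s29_of_s30 : S30Stmt → S29Stmt`;
* `s42_of_s30 : S30Stmt → S42Stmt`.

`S30Stmt`, `S29Stmt`, `S42Stmt` (`Skeleton4`) are literally the frozen statements.
-/
import Mathlib
import Fermat.Agent.ES.J7.S29ofS30_4
import Fermat.Agent.ES.J7.S42ofS29_4
import Fermat.Agent.ES.J7.Contracts1

set_option autoImplicit false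

namespace Fermat.Agent.ES.J7.J7Final4

open Fermat.Agent.ES.J7.Skeleton4

/-- **S29 from S30.** -/
theorem s29_of_s30 (h30 : S30Stmt) : S29Stmt :=
  Fermat.Agent.ES.J7.S29ofS30_4.s29_of_contracts h30
    Fermat.Agent.ES.J7.Contracts1.eigenChar Fermat.Agent.ES.J7.Contracts1.completeDVR

/-- **S42 from S30.** -/
theorem s42_of_s30 (h30 : S30Stmt) : S42Stmt :=
  Fermat.Agent.ES.J7.S42ofS29_4.s42_of_s29 (s29_of_s30 h30)

end Fermat.Agent.ES.J7.J7Final4
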