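/-
Program J, chapter J7 (helper4, integrator of S29/S42): the internal S30 theorem as a term of
`Skeleton4.S30Stmt`, and the two consequences `s29 : S29Stmt`, `s42 : S42Stmt`, with no hypothesis.

`s30` is `S30Final8.s30_of_kummerSystem` (helper8) applied to the unconditional Kummer system
`KummerSystemFinal18.kummerSystemJ` / `heckeCompatJ` (helper18; twin: `KummerSystemFinal24`).
-/
import Fermat.Agent.ES.J7.J7Final4
import Fermat.Agent.ES.J.S30Final8
import Fermat.Agent.ES.J.KummerSystemFinal18

set_option autoImplicit false

namespace Fermat.Agent.ES.J7.S30Term4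

open Fermat.Agent.ES.J7.Skeleton4

/-- The internal S30 theorem (literal frozen type of S30). -/
theorem s30 : S30Stmt :=
  Fermat.Agent.ES.J.S30Final8.s30_of_kummerSystem
    (fun p _ N _ => Fermat.Agent.ES.J.KummerSystemFinal18.kummerSystemJ p N)
    (fun p _ N _ => Fermat.Agent.ES.J.KummerSystemFinal18.heckeCompatJ p N)

/-- S29 (literal frozen type), unconditional. -/
theorem s29 : S29Stmt := Fermat.Agent.ES.J7.J7Final4.s29_of_s30 s30

/-- S42 (literal frozen type), unconditional. -/
theorem s42 : S42Stmt := Fermat.Agent.ES.J7.J7Final4.s42_of_s30 s30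

end Fermat.Agent.ES.J7.S30Term4
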